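/-
S48 (Deligne-Serre), block GRP, leaf G9: two counting lemmas for finite groups.
-/
import Mathlib

set_option autoImplicit false

namespace Fermat.Agent.S48.Grp

/-- A finite group, `B` a subset closed under multiplication containing `1`, not everything:
`2 |B| ≤ |G|` (a finite submonoid of a group is a subgroup; Lagrange). -/
theorem two_mul_card_le_of_mul_closed {G : Type*} [Group G] [Finite G] (B : Set G) (h1 : (1 : G) ∈ B)
    (hmul : ∀ a ∈ B, ∀ b ∈ B, a * b ∈ B) (hne : ∃ g, g ∉ B) : 2 * Nat.card B ≤ Nat.card G := by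
  have hpow : ∀ a ∈ B, ∀ n : ℕ, a ^ n ∈ B := by
    intro a ha n
    induction n with
    | zero => rw [pow_zero]; exact h1
    | succ n ih => rw [pow_succ]; exact hmul _ ih _ ha
  let S : Subgroup G :=
    { carrier := B
      mul_mem' := fun {a b} ha hb => hmul a ha b hb
      one_mem' := h1
      inv_mem' := by
        intro a ha
        obtain ⟨n, hn, hn1⟩ := (isOfFinOrder_iff_pow_eq_one.mp (isOfFinOrder_of_finite a))
        have h2 : a⁻¹ = a ^ (n - 1) := by
          rw [inv_eq_iff_mul_eq_one, ← pow_succ', Nat.sub_add_cancel hn, hn1]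
        change a⁻¹ ∈ B
        rw [h2]
        exact hpow a ha _ }
  have hS : Nat.card B = Nat.card S := rfl
  have hidx1 : S.index ≠ 1 := by
    intro h
    obtain ⟨g, hg⟩ := hne
    have : g ∈ S := by rw [Subgroup.index_eq_one.mp h]; trivial
    exact hg this
  have hidx0 : S.index ≠ 0 := Subgroup.index_ne_zero_of_finite
  have h2 : 2 ≤ S.index := by omega
  rw [hS, ← Subgroup.card_mul_index S, mul_comm]
  exact Nat.mul_le_mul_left _ h2

/-- Counting lemma.  `u` of order `ℓ`, `W ⊆ G` stable under right multiplication by `u`, `tr : G → k'`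
injective on every `{g u^t | t < ℓ}`, `g ∈ W`; `H ⊆ G` on which `tr` takes at most `m` values.
Then `ℓ |H ∩ W| ≤ m |W|`.
Sketch: `ℓ |H ∩ W| = ∑_{t < ℓ} |{g ∈ W | g u^t ∈ H}| = ∑_{g ∈ W} |{t < ℓ | g u^t ∈ H}| ≤ |W| m`
(`Finset.sum_comm`-type double counting; `g ↦ g u^t` is a bijection of `W`). -/
theorem card_inter_le {G T : Type*} [Group G] [Finite G] (u : G) (ℓ : ℕ) (W H : Set G)
    (hW : ∀ g ∈ W, g * u ∈ W) (hu : u ^ ℓ = 1) (tr : G → T)
    (hinj : ∀ g ∈ W, ∀ s < ℓ, ∀ t < ℓ, tr (g * u ^ s) = tr (g * u ^ t) → s = t)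
    (Y : Finset T) (hY : ∀ h ∈ H, tr h ∈ Y) :
    ℓ * Nat.card (H ∩ W : Set G) ≤ Y.card * Nat.card W := by
  classical
  have : Fintype G := Fintype.ofFinite G
  have hcW : Nat.card W = W.toFinset.card := by
    rw [Nat.card_coe_set_eq, Set.ncard_eq_toFinset_card']
  have hcHW : Nat.card (H ∩ W : Set G) = (H ∩ W).toFinset.card := by
    rw [Nat.card_coe_set_eq, Set.ncard_eq_toFinset_card']
  rw [hcW, hcHW]
  have hWpow : ∀ g ∈ W, ∀ t : ℕ, g * u ^ t ∈ W := by
    intro g hg t
    induction t with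
    | zero => rw [pow_zero, mul_one]; exact hg
    | succ t ih => rw [pow_succ, ← mul_assoc]; exact hW _ ih
  have step1 : ∀ t ∈ Finset.range ℓ,
      (H ∩ W).toFinset.card ≤ (W.toFinset.filter (fun g => g * u ^ t ∈ H)).card := by
    intro t ht
    apply Finset.card_le_card_of_injOn (fun h => h * u ^ (ℓ - t))
    · intro h hh
      have hh' : h ∈ H ∩ W := by simpa using hh
      have h3 : h * u ^ (ℓ - t) * u ^ t ∈ H := by
        rw [mul_assoc, ← pow_add, Nat.sub_add_cancel (le_of_lt (Finset.mem_range.mp ht)), hu,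
          mul_one]
        exact hh'.1
      simpa using ⟨hWpow h hh'.2 _, h3⟩
    · intro a _ b _ hab
      exact mul_right_cancel hab
  have step2 : ℓ * (H ∩ W).toFinset.card
      ≤ ∑ t ∈ Finset.range ℓ, (W.toFinset.filter (fun g => g * u ^ t ∈ H)).card := by
    calc ℓ * (H ∩ W).toFinset.card = ∑ _t ∈ Finset.range ℓ, (H ∩ W).toFinset.card := by simp
      _ ≤ _ := Finset.sum_le_sum step1
  have step3 : ∑ t ∈ Finset.range ℓ, (W.toFinset.filter (fun g => g * u ^ t ∈ H)).card
      = ∑ g ∈ W.toFinset, ((Finset.range ℓ).filter (fun t => g * u ^ t ∈ H)).card :=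
    Finset.sum_card_bipartiteAbove_eq_sum_card_bipartiteBelow (fun t g => g * u ^ t ∈ H)
  have step4 : ∀ g ∈ W.toFinset,
      ((Finset.range ℓ).filter (fun t => g * u ^ t ∈ H)).card ≤ Y.card := by
    intro g hg
    have hgW : g ∈ W := by simpa using hg
    apply Finset.card_le_card_of_injOn (fun t => tr (g * u ^ t))
    · intro t ht
      exact hY _ (Finset.mem_filter.mp ht).2
    · intro s hs t ht hst
      exact hinj g hgW s (Finset.mem_range.mp (Finset.mem_filter.mp hs).1) t
        (Finset.mem_range.mp (Finset.mem_filter.mp ht).1) hst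
  calc ℓ * (H ∩ W).toFinset.card
      ≤ ∑ g ∈ W.toFinset, ((Finset.range ℓ).filter (fun t => g * u ^ t ∈ H)).card := by
        rw [← step3]; exact step2
    _ ≤ ∑ _g ∈ W.toFinset, Y.card := Finset.sum_le_sum step4
    _ = Y.card * W.toFinset.card := by rw [Finset.sum_const, smul_eq_mul, mul_comm]

end Fermat.Agent.S48.Grp
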