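/-
S48 (Deligne-Serre), block GRP, leaf G7: linear algebra of an element of order `ℓ` in `GL₂(k)`,
`char k = ℓ`.
-/
import Mathlib

set_option autoImplicit false

namespace Fermat.Agent.S48.Grp

open Matrix Polynomial
open scoped MatrixGroups

variable {k : Type*} [Field k]

/-- Cayley-Hamilton for `2 × 2` matrices. -/
theorem Unip_cayley (n : Matrix (Fin 2) (Fin 2) k) : n * n = n.trace • n - n.det • 1 := by
  ext i j
  fin_cases i <;> fin_cases j <;>
    simp [Matrix.mul_apply, Fin.sum_univ_two, Matrix.trace_fin_two, Matrix.det_fin_two] <;> ring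

/-- a nilpotent `2 × 2` matrix has trace and determinant zero. -/
theorem Unip_trace_det_of_isNilpotent {n : Matrix (Fin 2) (Fin 2) k} (hn : IsNilpotent n) :
    n.trace = 0 ∧ n.det = 0 := by
  refine ⟨(Matrix.isNilpotent_trace_of_isNilpotent hn).eq_zero, ?_⟩
  obtain ⟨m, hm⟩ := hn
  have h1 : n.det ^ m = 0 := by rw [← Matrix.det_pow, hm, Matrix.det_zero]
  exact IsNilpotent.eq_zero ⟨m, h1⟩

/-- `u^ℓ = 1` in characteristic `ℓ`: `n = u - 1` satisfies `n^ℓ = 0` (`sub_pow_char_of_commute` or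
`Commute.add_pow_prime...`), hence `n² = 0`, `tr n = 0`, `det n = 0` (Cayley-Hamilton for `2 × 2`
matrices: `Matrix.aeval_self_charpoly`, `Matrix.charpoly_fin_two`; or
`Matrix.isNilpotent_trace_of_isNilpotent`, `Matrix.isNilpotent_det_of_isNilpotent`). -/
theorem sq_zero_of_pow_char (ℓ : ℕ) [Fact ℓ.Prime] [CharP k ℓ] {u : Matrix (Fin 2) (Fin 2) k}
    (hu : u ^ ℓ = 1) : (u - 1) * (u - 1) = 0 ∧ (u - 1).trace = 0 ∧ (u - 1).det = 0 := by
  have h1 : (u - 1) ^ ℓ = 0 := by
    rw [sub_pow_char_of_commute ℓ (Commute.one_right u), hu, one_pow, sub_self]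
  obtain ⟨ht, hd⟩ := Unip_trace_det_of_isNilpotent (n := u - 1) ⟨ℓ, h1⟩
  refine ⟨?_, ht, hd⟩
  rw [Unip_cayley, ht, hd, zero_smul, zero_smul, sub_zero]

/-- `(1 + n)^t = 1 + t n` when `n² = 0`. -/
theorem one_add_pow_of_sq_zero {n : Matrix (Fin 2) (Fin 2) k} (hn : n * n = 0) (t : ℕ) :
    (1 + n) ^ t = 1 + (t : k) • n := by
  induction t with
  | zero => simp
  | succ t ih =>
    rw [pow_succ, ih, add_mul, mul_add, mul_add, smul_mul_assoc, smul_mul_assoc, hn, smul_zero,
      add_zero, one_mul, one_mul, mul_one, Nat.cast_succ, add_smul, one_smul]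
    abel

/-- `det (1 + n) = 1 + tr n + det n`. -/
theorem det_one_add_fin_two (n : Matrix (Fin 2) (Fin 2) k) :
    (1 + n).det = 1 + n.trace + n.det := by
  simp only [Matrix.det_fin_two, Matrix.trace_fin_two, Matrix.add_apply, Matrix.one_apply_eq]
  simp
  ring

theorem Unip_sandwich (n x : Matrix (Fin 2) (Fin 2) k) :
    n * x * n = (x * n).trace • n - n.det • x.adjugate := by
  ext i j
  fin_cases i <;> fin_cases j <;>
    simp [Matrix.mul_apply, Fin.sum_univ_two, Matrix.trace_fin_two, Matrix.det_fin_two,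
      Matrix.adjugate_fin_two] <;> ring

theorem Unip_polar (n x : Matrix (Fin 2) (Fin 2) k) :
    x * n + n * x = x.trace • n + n.trace • x + ((x * n).trace - x.trace * n.trace) • 1 := by
  ext i j
  fin_cases i <;> fin_cases j <;>
    simp [Matrix.mul_apply, Fin.sum_univ_two, Matrix.trace_fin_two] <;> ring

/-- The set `{g | tr (g n) = 0}` (= the stabiliser of the line `im n = ker n`) is closed under
multiplication, for `n ≠ 0`, `n² = 0`.
Sketch: `n = !![a, b; c, -a]`, `a² + b c = 0`, not all zero.  `tr (g n) = 0` says that `g` maps the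
line `ker n` into itself.  Either use vectors (`v = n w ≠ 0`, `ker n = k v` by rank-nullity,
`n g n = tr (g n) n` from Cayley-Hamilton for `g n`) or brute force in coordinates
(cases `b ≠ 0`, `c ≠ 0`; `field_simp`/`linear_combination`). -/
theorem trace_mul_mul_eq_zero {n : Matrix (Fin 2) (Fin 2) k} (hn : n * n = 0) (hn0 : n ≠ 0)
    {g h : Matrix (Fin 2) (Fin 2) k} (hg : (g * n).trace = 0) (hh : (h * n).trace = 0) :
    (g * h * n).trace = 0 := by
  obtain ⟨ht, hd⟩ := Unip_trace_det_of_isNilpotent (n := n) ⟨2, by rw [pow_two, hn]⟩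
  have h1 : ∀ x : Matrix (Fin 2) (Fin 2) k, n * x * n = (x * n).trace • n := by
    intro x
    rw [Unip_sandwich, hd, zero_smul, sub_zero]
  have h2 : h * n = h.trace • n - n * h := by
    have := Unip_polar n h
    rw [ht, hh, zero_smul, mul_zero, sub_zero, zero_smul, add_zero, add_zero] at this
    rw [← this, add_sub_cancel_right]
  have h3 : n * g * n = 0 := by rw [h1, hg, zero_smul]
  have h4 : (g * h * n).trace • n = 0 := by
    rw [← h1, ← mul_assoc, mul_assoc (n * g) h n, h2, mul_sub, mul_smul_comm, h3, smul_zero,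
      ← mul_assoc, h3, zero_mul, sub_zero]
  exact (smul_eq_zero.1 h4).resolve_right hn0

end Fermat.Agent.S48.Grp
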