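/-
S48 (Deligne-Serre), block GRP, leaf G8: `ℓ = char k` does not divide `|G|`.
-/
import Fermat.Agent.S48.Grp.Unip
import Fermat.Agent.S48.Grp.Count

set_option autoImplicit false

namespace Fermat.Agent.S48.Grp

open Matrix Polynomial
open scoped MatrixGroups

variable {k : Type*} [Field k]

/-- Sketch.  Suppose `ℓ ∣ |G|`; Cauchy (`exists_prime_orderOf_dvd_card'`) gives `u` of order `ℓ`;
`n = ρ u - 1`: `n² = 0`, `tr n = det n = 0` (`sq_zero_of_pow_char`).
`B = {g | tr (ρ g * n) = 0}` contains `1`, is closed under multiplication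
(`trace_mul_mul_eq_zero`; `n ≠ 0`, otherwise `ρ u = 1` and `hker` gives `u = 1`).
`B ≠ G`: otherwise `tr (ρ (g u)) = tr (ρ g) + tr (ρ g n) = tr (ρ g)` and `det (ρ (g u)) = det (ρ g)`
(`det_one_add_fin_two`), so the characteristic polynomials agree (`Matrix.charpoly_fin_two`) and
`hker` gives `u = 1`.  So `2 |B| ≤ |G|`.  `W = Bᶜ` is stable under `· * u`
(`tr (g u n) = tr (g n) + tr (g n n) = tr (g n)`), `tr (ρ (g u^t)) = tr (ρ g) + t tr (ρ g n)`
(`one_add_pow_of_sq_zero`) is injective in `t < ℓ` (`CharP.cast_eq_zero_iff`, `Nat.cast_injOn...`).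
`H = {g | charpoly (ρ g) ∈ Y}`; traces on `H` lie in `Y.image (fun Q => - Q.coeff 1)`.
`card_inter_le`: `ℓ |H ∩ W| ≤ |Y| |W|`, so `4 |H ∩ W| ≤ |W|` (strictly if `W ≠ ∅`), but
`|W| ≤ |H ∩ W| + |Hᶜ| ≤ |W|/4 + |G|/4 ≤ |W|/4 + |W|/2`: contradiction with `|W| > 0`. -/
theorem not_dvd_card (ℓ : ℕ) [Fact ℓ.Prime] [CharP k ℓ] {G : Type*} [Group G] [Finite G]
    (ρ : G →* GL (Fin 2) k)
    (hker : ∀ u : G, (∀ g : G, (ρ (g * u) : Matrix (Fin 2) (Fin 2) k).charpoly =
      (ρ g : Matrix (Fin 2) (Fin 2) k).charpoly) → u = 1)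
    (Y : Finset k[X])
    (hY : 4 * Nat.card {g : G // (ρ g : Matrix (Fin 2) (Fin 2) k).charpoly ∉ Y} ≤ Nat.card G)
    (hℓ : 4 * Y.card < ℓ) : ¬ ℓ ∣ Nat.card G := by
  classical
  intro hdvd
  obtain ⟨u, hu⟩ := exists_prime_orderOf_dvd_card' ℓ hdvd
  have hℓp : ℓ.Prime := Fact.out
  have hu1 : u ≠ 1 := by
    rintro rfl
    rw [orderOf_one] at hu
    exact hℓp.one_lt.ne hu
  have huℓ : u ^ ℓ = 1 := by rw [← hu]; exact pow_orderOf_eq_one u
  set U : Matrix (Fin 2) (Fin 2) k := (ρ u : Matrix (Fin 2) (Fin 2) k) with hU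
  have hUℓ : U ^ ℓ = 1 := by
    have := congrArg (fun x : GL (Fin 2) k => (x : Matrix (Fin 2) (Fin 2) k)) (congrArg ρ huℓ)
    simpa using this
  set n : Matrix (Fin 2) (Fin 2) k := U - 1 with hn
  obtain ⟨hnn, htr, hdet⟩ := sq_zero_of_pow_char ℓ hUℓ
  have hUn : U = 1 + n := by rw [hn]; abel
  have hmulu : ∀ g : G, (ρ (g * u) : Matrix (Fin 2) (Fin 2) k)
      = (ρ g : Matrix (Fin 2) (Fin 2) k) + (ρ g : Matrix (Fin 2) (Fin 2) k) * n := by
    intro g
    rw [map_mul, Units.val_mul, ← hU, hUn, mul_add, mul_one]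
  have hdetU : U.det = 1 := by
    rw [hUn, det_one_add_fin_two, htr, hdet]; simp
  -- Lemma A
  have hA : ¬ ∀ g : G, ((ρ g : Matrix (Fin 2) (Fin 2) k) * n).trace = 0 := by
    intro h
    apply hu1
    apply hker
    intro g
    rw [Matrix.charpoly_fin_two, Matrix.charpoly_fin_two]
    have h1 : (ρ (g * u) : Matrix (Fin 2) (Fin 2) k).trace
        = (ρ g : Matrix (Fin 2) (Fin 2) k).trace := by
      rw [hmulu, Matrix.trace_add, h g, add_zero]
    have h2 : (ρ (g * u) : Matrix (Fin 2) (Fin 2) k).det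
        = (ρ g : Matrix (Fin 2) (Fin 2) k).det := by
      rw [map_mul, Units.val_mul, Matrix.det_mul, ← hU, hdetU, mul_one]
    rw [h1, h2]
  have hn0 : n ≠ 0 := by
    intro h0
    apply hA
    intro g
    rw [h0]; simp
  set B : Set G := {g | ((ρ g : Matrix (Fin 2) (Fin 2) k) * n).trace = 0} with hB
  have hB1 : (1 : G) ∈ B := by
    show ((ρ 1 : Matrix (Fin 2) (Fin 2) k) * n).trace = 0
    rw [map_one, Units.val_one, one_mul, htr]
  have hBmul : ∀ a ∈ B, ∀ b ∈ B, a * b ∈ B := by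
    intro a ha b hb
    show ((ρ (a * b) : Matrix (Fin 2) (Fin 2) k) * n).trace = 0
    rw [map_mul, Units.val_mul]
    exact trace_mul_mul_eq_zero hnn hn0 ha hb
  have hBne : ∃ g, g ∉ B := by
    by_contra h
    push Not at h
    exact hA h
  have hcardB := two_mul_card_le_of_mul_closed B hB1 hBmul hBne
  set W : Set G := Bᶜ with hWdef
  have hW : ∀ g ∈ W, g * u ∈ W := by
    intro g hg hgu
    apply hg
    have h1 : ((ρ (g * u) : Matrix (Fin 2) (Fin 2) k) * n).trace = 0 := hgu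
    rw [hmulu, add_mul, mul_assoc, hnn, mul_zero, add_zero] at h1
    exact h1
  have hpow : ∀ (g : G) (t : ℕ), (ρ (g * u ^ t) : Matrix (Fin 2) (Fin 2) k).trace
      = (ρ g : Matrix (Fin 2) (Fin 2) k).trace
        + (t : k) * ((ρ g : Matrix (Fin 2) (Fin 2) k) * n).trace := by
    intro g t
    rw [map_mul, map_pow, Units.val_mul, Units.val_pow_eq_pow_val, ← hU, hUn,
      one_add_pow_of_sq_zero hnn, mul_add, mul_one, Matrix.trace_add, Matrix.mul_smul,
      Matrix.trace_smul, smul_eq_mul]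
  have hinj : ∀ g ∈ W, ∀ s < ℓ, ∀ t < ℓ,
      (ρ (g * u ^ s) : Matrix (Fin 2) (Fin 2) k).trace
        = (ρ (g * u ^ t) : Matrix (Fin 2) (Fin 2) k).trace → s = t := by
    intro g hg s hs t ht h
    rw [hpow, hpow] at h
    have h1 : (s : k) = (t : k) := mul_right_cancel₀ hg (add_left_cancel h)
    exact CharP.natCast_injOn_Iio k ℓ hs ht h1
  set H : Set G := {g | (ρ g : Matrix (Fin 2) (Fin 2) k).charpoly ∈ Y} with hH
  have hHY : ∀ h ∈ H, (ρ h : Matrix (Fin 2) (Fin 2) k).trace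
      ∈ Y.image (fun Q : k[X] => - Q.coeff 1) := by
    intro h hh
    refine Finset.mem_image.2 ⟨_, hh, ?_⟩
    rw [Matrix.trace_eq_neg_charpoly_coeff]
    simp
  have hcount := card_inter_le u ℓ W H hW huℓ
    (fun g => (ρ g : Matrix (Fin 2) (Fin 2) k).trace) hinj _ hHY
  have hY' : (Y.image (fun Q : k[X] => - Q.coeff 1)).card ≤ Y.card := Finset.card_image_le
  -- numerics
  have e1 : Nat.card B + Nat.card W = Nat.card G := by
    rw [Nat.card_coe_set_eq, Nat.card_coe_set_eq]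
    exact Set.ncard_add_ncard_compl B
  have e2 : Nat.card W ≤ Nat.card (H ∩ W : Set G)
      + Nat.card {g : G // (ρ g : Matrix (Fin 2) (Fin 2) k).charpoly ∉ Y} := by
    have h1 : Nat.card {g : G // (ρ g : Matrix (Fin 2) (Fin 2) k).charpoly ∉ Y}
        = (Hᶜ : Set G).ncard := by
      rw [← Nat.card_coe_set_eq]; rfl
    rw [h1, Nat.card_coe_set_eq, Nat.card_coe_set_eq]
    refine le_trans (Set.ncard_le_ncard ?_ (Set.toFinite _)) (Set.ncard_union_le _ _)
    intro g hg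
    by_cases hgH : g ∈ H
    · exact Or.inl ⟨hgH, hg⟩
    · exact Or.inr hgH
  have e3 : 0 < Nat.card W := by
    obtain ⟨g, hg⟩ := hBne
    rw [Nat.card_coe_set_eq]
    exact (Set.ncard_pos (Set.toFinite _)).2 ⟨g, hg⟩
  generalize Nat.card W = w at *
  generalize Nat.card (H ∩ W : Set G) = x at *
  generalize Nat.card B = b at *
  generalize Nat.card {g : G // (ρ g : Matrix (Fin 2) (Fin 2) k).charpoly ∉ Y} = c at *
  generalize Nat.card G = N at *
  generalize (Y.image (fun Q : k[X] => - Q.coeff 1)).card = y' at *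
  generalize Y.card = y at *
  have h1 : w ≤ 2 * x := by omega
  have hx : 0 < x := by omega
  have h2 : ℓ * x ≤ (2 * y) * x := by
    calc ℓ * x ≤ y' * w := hcount
      _ ≤ y * (2 * x) := Nat.mul_le_mul hY' h1
      _ = (2 * y) * x := by ring
  have h3 : ℓ ≤ 2 * y := Nat.le_of_mul_le_mul_right h2 hx
  omega

end Fermat.Agent.S48.Grp
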