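/-
S48 (Deligne-Serre), block GRP, leaf G1: the arithmetic of the class equation
`∑ n/e_i + 2 n = r n + 2`.
-/
import Mathlib

set_option autoImplicit false

namespace Fermat.Agent.S48.Grp

/-- linear consequences of `d * e = n`, `2 ≤ e`. -/
theorem arith_aux {n d e : ℕ} (h : d * e = n) (he : 2 ≤ e) :
    2 * d = n ∨ 3 * d = n ∨ 4 * d = n ∨ 5 * d = n ∨ 6 * d ≤ n := by
  rcases Nat.lt_or_ge e 6 with h6 | h6
  · interval_cases e <;> omega
  · right; right; right; right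
    calc 6 * d ≤ e * d := Nat.mul_le_mul_right d h6
      _ = n := by rw [mul_comm]; exact h

/-- Three orbits.  Sketch: split each `e_i` into `2, 3, 4, 5, ≥ 6` (giving the LINEAR facts
`2 d = n`, `3 d = n`, `4 d = n`, `5 d = n`, `6 d ≤ n`) and close every case by `omega`. -/
theorem arith_three {n d₁ d₂ d₃ e₁ e₂ e₃ : ℕ} (h₁ : d₁ * e₁ = n) (h₂ : d₂ * e₂ = n)
    (h₃ : d₃ * e₃ = n) (he₁ : 2 ≤ e₁) (he₂ : 2 ≤ e₂) (he₃ : 2 ≤ e₃)
    (hs : d₁ + d₂ + d₃ = n + 2) : d₁ ≤ 12 ∨ d₂ ≤ 12 ∨ d₃ ≤ 12 := by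
  have a₁ := arith_aux h₁ he₁
  have a₂ := arith_aux h₂ he₂
  have a₃ := arith_aux h₃ he₃
  clear h₁ h₂ h₃ he₁ he₂ he₃
  omega

/-- The class equation forces an orbit of length `≤ 12`.
Sketch: `2 d i ≤ n`, so `2 (r n + 2) = 2 ∑ d + 4 n ≤ r n + 4 n`, hence `r ≤ 3`.
`r = 0`: `2 n = 2`.  `r = 1`: `d + n = 2`, but `d ≥ 1` (`d e = n ≥ 2`).  `r = 2`: `d₁ + d₂ = 2`.
`r = 3`: `arith_three` (use `Fintype.equivFin` / `Fintype.equivFinOfCardEq` and
`Fin.sum_univ_three`). -/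
theorem exists_small_orbit {Q : Type*} [Fintype Q] (n : ℕ) (hn : 2 ≤ n) (d e : Q → ℕ)
    (hde : ∀ i, d i * e i = n) (he : ∀ i, 2 ≤ e i)
    (hsum : ∑ i, d i + 2 * n = Fintype.card Q * n + 2) : ∃ i, d i ≤ 12 := by
  have h2d : ∀ i, 2 * d i ≤ n := by
    intro i
    calc 2 * d i ≤ e i * d i := Nat.mul_le_mul_right _ (he i)
      _ = n := by rw [mul_comm]; exact hde i
  have hle : 2 * ∑ i, d i ≤ Fintype.card Q * n := by
    rw [Finset.mul_sum]
    calc ∑ i, 2 * d i ≤ ∑ _i : Q, n := Finset.sum_le_sum fun i _ => h2d i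
      _ = Fintype.card Q * n := by rw [Finset.sum_const, Finset.card_univ, smul_eq_mul]
  have hr : Fintype.card Q < 4 := by
    by_contra hcon
    have h4 : 4 * n ≤ Fintype.card Q * n := Nat.mul_le_mul_right n (not_lt.mp hcon)
    omega
  obtain ⟨r, hrQ⟩ : ∃ r, Fintype.card Q = r := ⟨_, rfl⟩
  have E := Fintype.equivFinOfCardEq hrQ
  have hsum' : ∑ i, d i = ∑ j : Fin r, d (E.symm j) := (Equiv.sum_comp E.symm d).symm
  rw [hrQ] at hr hsum
  rw [hsum'] at hsum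
  interval_cases r
  · simp at hsum
    omega
  · rw [Fin.sum_univ_one] at hsum
    exact ⟨E.symm 0, by omega⟩
  · rw [Fin.sum_univ_two] at hsum
    exact ⟨E.symm 0, by omega⟩
  · rw [Fin.sum_univ_three] at hsum
    rcases arith_three (hde (E.symm 0)) (hde (E.symm 1)) (hde (E.symm 2)) (he _) (he _) (he _)
      (by omega) with h | h | h
    · exact ⟨_, h⟩
    · exact ⟨_, h⟩
    · exact ⟨_, h⟩

end Fermat.Agent.S48.Grp
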