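/-
S48 (Deligne-Serre), block GRP, leaf G2: a finite group acting on a finite set such that the
elements outside a subgroup `Z` (acting trivially) have exactly two fixed points, and every point
has a stabiliser bigger than `Z`, has a point stabiliser of index `≤ 12`.
-/
import Fermat.Agent.S48.Grp.Arith

set_option autoImplicit false

namespace Fermat.Agent.S48.Grp

open MulAction

/-- Sketch.  `N = |G| = n z`, `z = |Z|` (Lagrange), `n ≥ 2` since `Z ≠ ⊤`.
Burnside (`MulAction.sum_card_fixedBy_eq_card_orbits_mul_card_group`):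
`∑_g |Fix g| = z |Ω| + 2 (N - z) = r N`.
Class formula (`MulAction.card_eq_sum_card_group_div_card_stabilizer`):
`|Ω| = ∑_{orbits} N / s_i`, `s_i = |Stab ω_i| = e_i z` (`Z ≤ Stab`, Lagrange), `e_i ≥ 2` because the
stabiliser contains an element outside `Z`; `d_i = N / s_i`, `d_i e_i = n`.
Divide by `z` and apply `exists_small_orbit`. -/
theorem exists_large_stabilizer {G Ω : Type*} [Group G] [Finite G] [MulAction G Ω] [Finite Ω]
    (Z : Subgroup G) (hZ : ∀ g ∈ Z, ∀ ω : Ω, g • ω = ω)
    (hfix : ∀ g, g ∉ Z → Nat.card (fixedBy Ω g) = 2)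
    (hstab : ∀ ω : Ω, ∃ g, g ∉ Z ∧ g • ω = ω)
    (hne : Z ≠ ⊤) :
    ∃ ω : Ω, Nat.card G ≤ 12 * Nat.card (stabilizer G ω) := by
  classical
  let _ : Fintype G := Fintype.ofFinite G
  let _ : Fintype Ω := Fintype.ofFinite Ω
  let _ : Fintype (Quotient (orbitRel G Ω)) := Fintype.ofFinite _
  have hzpos : 0 < Nat.card Z := Nat.card_pos
  have hN : Nat.card Z * Z.index = Nat.card G := Z.card_mul_index
  have hn : 2 ≤ Z.index := by
    have h0 : Z.index ≠ 0 := Subgroup.index_ne_zero_of_finite
    have h1 : Z.index ≠ 1 := fun h => hne (Subgroup.index_eq_one.mp h)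
    omega
  have hZle : ∀ ω : Ω, Z ≤ stabilizer G ω := fun ω g hg => mem_stabilizer_iff.mpr (hZ g hg ω)
  -- Burnside
  have hB := sum_card_fixedBy_eq_card_orbits_mul_card_group G Ω
  have hfixcard : ∀ g : G, Fintype.card (fixedBy Ω g) = if g ∈ Z then Fintype.card Ω else 2 := by
    intro g
    split_ifs with hg
    · have h1 : fixedBy Ω g = Set.univ := by
        ext ω
        simp only [mem_fixedBy, Set.mem_univ, iff_true]
        exact hZ g hg ω
      rw [← Nat.card_eq_fintype_card, h1, Nat.card_univ, Nat.card_eq_fintype_card]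
    · rw [← Nat.card_eq_fintype_card]
      exact hfix g hg
  have hcardZ : (Finset.univ.filter (fun g : G => g ∈ Z)).card = Nat.card Z := by
    rw [Nat.card_eq_fintype_card, Fintype.card_subtype]
  have hcardZ' : (Finset.univ.filter (fun g : G => g ∈ Z)).card
      + (Finset.univ.filter (fun g : G => ¬ g ∈ Z)).card = Nat.card G := by
    rw [Finset.card_filter_add_card_filter_not, Finset.card_univ, Nat.card_eq_fintype_card]
  have hB' : Nat.card Z * Fintype.card Ω + (Finset.univ.filter (fun g : G => ¬ g ∈ Z)).card * 2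
      = Fintype.card (Quotient (orbitRel G Ω)) * Nat.card G := by
    rw [Nat.card_eq_fintype_card (α := G), ← hB, Finset.sum_congr rfl (fun g _ => hfixcard g),
      Finset.sum_ite, Finset.sum_const, Finset.sum_const, hcardZ, smul_eq_mul, smul_eq_mul]
  -- class formula
  have hC := card_eq_sum_card_group_div_card_stabilizer G Ω
  have hdiv : ∀ ω : Quotient (orbitRel G Ω),
      Fintype.card G / Fintype.card (stabilizer G ω.out) = (stabilizer G ω.out).index := by
    intro ω
    rw [← Nat.card_eq_fintype_card, ← Nat.card_eq_fintype_card,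
      ← (stabilizer G ω.out).card_mul_index]
    exact Nat.mul_div_cancel_left _ Nat.card_pos
  rw [Finset.sum_congr rfl (fun ω _ => hdiv ω)] at hC
  -- apply the arithmetic lemma
  obtain ⟨ω, hω⟩ := exists_small_orbit (Q := Quotient (orbitRel G Ω)) Z.index hn
    (fun ω => (stabilizer G ω.out).index) (fun ω => Z.relIndex (stabilizer G ω.out))
    (fun ω => by
      rw [mul_comm]
      exact Subgroup.relIndex_mul_index (hZle ω.out))
    (fun ω => by
      have h0 : Z.relIndex (stabilizer G ω.out) ≠ 0 := Subgroup.index_ne_zero_of_finite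
      have h1 : Z.relIndex (stabilizer G ω.out) ≠ 1 := by
        intro h
        obtain ⟨g, hgZ, hg⟩ := hstab ω.out
        exact hgZ (Subgroup.relIndex_eq_one.mp h (mem_stabilizer_iff.mpr hg))
      omega)
    (by
      rw [← hC]
      apply Nat.eq_of_mul_eq_mul_left hzpos
      have h2 : (Finset.univ.filter (fun g : G => ¬ g ∈ Z)).card + Nat.card Z
          = Nat.card Z * Z.index := by
        rw [hN, ← hcardZ', hcardZ, add_comm]
      rw [← hN] at hB'
      nlinarith [hB', h2])
  refine ⟨ω.out, ?_⟩
  rw [← (stabilizer G ω.out).card_mul_index, mul_comm]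
  exact Nat.mul_le_mul_right _ hω

end Fermat.Agent.S48.Grp
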