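/-
S48 (Deligne-Serre), block GRP, leaf G3: fixed points of elements of finite order prime to the
characteristic of `GL₂(k)` on `ℙ¹(k) = OnePoint k` (Mathlib's Möbius action,
`Mathlib/Topology/Compactification/OnePoint/ProjectiveLine.lean`:
`OnePoint.smul_infty_eq_ite`, `OnePoint.smul_some_eq_ite`, `OnePoint.smul_infty_eq_self_iff`,
`Matrix.GeneralLinearGroup.fixpointPolynomial_aeval_eq_zero_iff`).
-/
import Mathlib

set_option autoImplicit false

namespace Fermat.Agent.S48.Grp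

open OnePoint Matrix MulAction
open scoped MatrixGroups Pointwise

variable {k : Type*} [Field k] [DecidableEq k]

/-- `g` is a scalar matrix. -/
def IsScalar (g : GL (Fin 2) k) : Prop := g 0 1 = 0 ∧ g 1 0 = 0 ∧ g 0 0 = g 1 1

omit [DecidableEq k] in
theorem mobius_isScalar_iff (g : GL (Fin 2) k) :
    IsScalar g ↔ ∃ a : k, (g : Matrix (Fin 2) (Fin 2) k) = a • (1 : Matrix (Fin 2) (Fin 2) k) := by
  constructor
  · rintro ⟨h1, h2, h3⟩
    refine ⟨g 0 0, ?_⟩
    ext i j
    fin_cases i <;> fin_cases j <;> simp [h1, h2, h3]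
  · rintro ⟨a, ha⟩
    refine ⟨?_, ?_, ?_⟩ <;> simp [ha]

omit [DecidableEq k] in
theorem mobius_isScalar_conj {P g : GL (Fin 2) k} (hg : IsScalar g) : IsScalar (P⁻¹ * g * P) := by
  rw [mobius_isScalar_iff] at hg ⊢
  obtain ⟨a, ha⟩ := hg
  refine ⟨a, ?_⟩
  have h1 : ((P⁻¹ * P : GL (Fin 2) k) : Matrix (Fin 2) (Fin 2) k) = 1 := by simp
  rw [Units.val_mul] at h1
  rw [Units.val_mul, Units.val_mul, ha, Matrix.mul_smul, Matrix.mul_one, Matrix.smul_mul, h1]

/-- scalar matrices are central, so the property is conjugation invariant. -/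
theorem isScalar_conj_iff (P g : GL (Fin 2) k) : IsScalar (P⁻¹ * g * P) ↔ IsScalar g := by
  refine ⟨fun h => ?_, mobius_isScalar_conj⟩
  have := mobius_isScalar_conj (P := P⁻¹) h
  have h2 : P⁻¹⁻¹ * (P⁻¹ * g * P) * P⁻¹ = g := by group
  rwa [h2] at this

omit [DecidableEq k] in
theorem mobius_det_eq (g : GL (Fin 2) k) : g 0 0 * g 1 1 - g 0 1 * g 1 0 ≠ 0 := by
  have := g.det_ne_zero
  rwa [Matrix.det_fin_two] at this

theorem IsScalar.smul_eq {g : GL (Fin 2) k} (hg : IsScalar g) (x : OnePoint k) : g • x = x := by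
  obtain ⟨h1, h2, h3⟩ := hg
  have hd := mobius_det_eq g
  rw [h1, h2, h3] at hd
  have h11 : g 1 1 ≠ 0 := by
    intro h
    simp [h] at hd
  cases x with
  | infty => simp [smul_infty_eq_ite, h2]
  | coe c =>
    rw [smul_some_eq_ite]
    simp only [h1, h2, h3, zero_mul, zero_add, add_zero, if_neg h11]
    congr 1
    field_simp

theorem isScalar_one : IsScalar (1 : GL (Fin 2) k) := by
  refine ⟨?_, ?_, ?_⟩ <;> simp

theorem IsScalar.mul {g h : GL (Fin 2) k} (hg : IsScalar g) (hh : IsScalar h) :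
    IsScalar (g * h) := by
  rw [mobius_isScalar_iff] at hg hh ⊢
  obtain ⟨a, ha⟩ := hg
  obtain ⟨b, hb⟩ := hh
  refine ⟨a * b, ?_⟩
  rw [Units.val_mul, ha, hb, Matrix.smul_mul, Matrix.one_mul, smul_smul]

theorem IsScalar.inv {g : GL (Fin 2) k} (hg : IsScalar g) : IsScalar g⁻¹ := by
  obtain ⟨h1, h2, h3⟩ := hg
  refine ⟨?_, ?_, ?_⟩ <;>
    simp [Matrix.coe_units_inv, Matrix.inv_def, Matrix.adjugate_fin_two, h1, h2, h3]

omit [DecidableEq k] in
theorem mobius_pow_entries {g : GL (Fin 2) k} (h10 : g 1 0 = 0) (h : g 0 0 = g 1 1) (n : ℕ) :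
    (g ^ n) 1 0 = 0 ∧ (g ^ n) 0 0 = g 1 1 ^ n ∧ (g ^ n) 1 1 = g 1 1 ^ n ∧
      g 1 1 * (g ^ n) 0 1 = n * g 1 1 ^ n * g 0 1 := by
  induction n with
  | zero => simp
  | succ n ih =>
    obtain ⟨i1, i2, i3, i4⟩ := ih
    rw [pow_succ]
    simp only [Units.val_mul, Matrix.mul_apply, Fin.sum_univ_two]
    refine ⟨?_, ?_, ?_, ?_⟩
    · rw [i1, h10]; ring
    · rw [i2, h10, h]; ring
    · rw [i1, i3]; ring
    · rw [i2]
      push_cast
      linear_combination g 1 1 * i4

/-- powers of `[[a, b], [0, a]]`: `(g^N) 0 1 = N a^(N-1) b`; so finite order prime to the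
characteristic forces `b = 0`. -/
theorem upper_unipotent {g : GL (Fin 2) k} (h10 : g 1 0 = 0) (h : g 0 0 = g 1 1) {N : ℕ}
    (hN : (N : k) ≠ 0) (hgN : g ^ N = 1) : g 0 1 = 0 := by
  have hd := mobius_det_eq g
  rw [h10, h] at hd
  have h11 : g 1 1 ≠ 0 := by
    intro h
    simp [h] at hd
  have h4 := (mobius_pow_entries h10 h N).2.2.2
  rw [hgN] at h4
  simp only [Units.val_one, ne_eq, zero_ne_one, not_false_eq_true, Matrix.one_apply_ne,
    mul_zero] at h4
  have := mul_eq_zero.mp h4.symm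
  rcases this with h5 | h5
  · exact absurd h5 (mul_ne_zero hN (pow_ne_zero _ h11))
  · exact h5

/-- fixed points of an upper triangular matrix with distinct diagonal entries:
`x ↦ (a x + b) / d`. -/
theorem fixedBy_upper {g : GL (Fin 2) k} (h10 : g 1 0 = 0) (h : g 0 0 ≠ g 1 1) :
    fixedBy (OnePoint k) g = {∞, ((g 0 1 / (g 1 1 - g 0 0) : k) : OnePoint k)} := by
  have hd := mobius_det_eq g
  rw [h10] at hd
  have h11 : g 1 1 ≠ 0 := by
    intro h
    simp [h] at hd
  have hsub : g 1 1 - g 0 0 ≠ 0 := sub_ne_zero.mpr (Ne.symm h)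
  ext x
  rw [mem_fixedBy]
  cases x with
  | infty => simp [smul_infty_eq_ite, h10]
  | coe c =>
    rw [smul_some_eq_ite]
    simp only [h10, zero_mul, zero_add, if_neg h11, Set.mem_insert_iff, Set.mem_singleton_iff,
      OnePoint.coe_ne_infty, false_or, OnePoint.coe_eq_coe]
    rw [div_eq_iff h11, eq_div_iff hsub]
    constructor
    · intro h1; linear_combination -h1
    · intro h1; linear_combination -h1

/-- `g 1 0 = 0`: `∞`; otherwise a root of the quadratic `fixpointPolynomial`. -/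
theorem exists_fixed [IsAlgClosed k] (g : GL (Fin 2) k) : ∃ x : OnePoint k, g • x = x := by
  by_cases h10 : g 1 0 = 0
  · exact ⟨∞, smul_infty_eq_self_iff.mpr h10⟩
  · have hdeg : g.fixpointPolynomial.degree ≠ 0 := by
      have : g.fixpointPolynomial =
          Polynomial.C (g 1 0) * Polynomial.X ^ 2 + Polynomial.C (g 1 1 - g 0 0) * Polynomial.X +
            Polynomial.C (- g 0 1) := by
        rw [Matrix.GeneralLinearGroup.fixpointPolynomial, Polynomial.C_neg, sub_eq_add_neg]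
      rw [this, Polynomial.degree_quadratic h10]
      decide
    obtain ⟨c, hc⟩ := IsAlgClosed.exists_aeval_eq_zero k g.fixpointPolynomial hdeg
    exact ⟨c, Matrix.GeneralLinearGroup.fixpointPolynomial_aeval_eq_zero_iff.mp hc⟩

/-- transitivity: `[[x, 1], [1, 0]] • ∞ = x`. -/
theorem exists_smul_infty (x : OnePoint k) : ∃ P : GL (Fin 2) k, P • (∞ : OnePoint k) = x := by
  cases x with
  | infty => exact ⟨1, one_smul _ _⟩
  | coe c =>
    refine ⟨Matrix.GeneralLinearGroup.mkOfDetNeZero !![c, 1; 1, 0] (by simp [Matrix.det_fin_two]), ?_⟩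
    rw [smul_infty_eq_ite]
    simp [Matrix.GeneralLinearGroup.mkOfDetNeZero]

/-- A non scalar element of finite order prime to the characteristic has exactly two fixed points.
Sketch: `x₀` fixed, `P • ∞ = x₀`, `g' = P⁻¹ g P` fixes `∞`, `g'^N = 1`, `g'` not scalar, so
`g' 0 0 ≠ g' 1 1` (`upper_unipotent`), `fixedBy_upper`; `x ↦ P • x` is a bijection
`fixedBy g' ≃ fixedBy g`. -/
theorem card_fixedBy_eq_two [IsAlgClosed k] {g : GL (Fin 2) k} {N : ℕ} (hN : (N : k) ≠ 0)
    (hgN : g ^ N = 1) (hg : ¬ IsScalar g) : Nat.card (fixedBy (OnePoint k) g) = 2 := by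
  obtain ⟨x₀, hx₀⟩ := exists_fixed g
  obtain ⟨P, hP⟩ := exists_smul_infty x₀
  set g' : GL (Fin 2) k := P⁻¹ * g * P with hg'
  have h10 : g' 1 0 = 0 := by
    rw [← smul_infty_eq_self_iff, hg', mul_smul, mul_smul, hP, hx₀, ← hP, inv_smul_smul]
  have hg'N : g' ^ N = 1 := by
    have : g' = P⁻¹ * g * P⁻¹⁻¹ := by rw [inv_inv]
    rw [this, conj_pow, hgN]
    group
  have hg's : ¬ IsScalar g' := fun h => hg ((isScalar_conj_iff P g).mp h)
  have hne : g' 0 0 ≠ g' 1 1 := by
    intro h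
    exact hg's ⟨upper_unipotent h10 h hN hg'N, h10, h⟩
  have h1 := fixedBy_upper h10 hne
  have h2 : fixedBy (OnePoint k) g = P • fixedBy (OnePoint k) g' := by
    rw [smul_fixedBy, hg']
    congr 1
    group
  rw [h2, h1, Set.smul_set_insert, Set.smul_set_singleton, Nat.card_coe_set_eq, Set.ncard_pair]
  intro h
  exact OnePoint.infty_ne_coe _ (MulAction.injective P h)

end Fermat.Agent.S48.Grp
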