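/-
S48 (Deligne-Serre), block GRP, leaf G4: Jordan's theorem for `GL₂(k)` in the form we need:
a finite group `G → GL₂(k)` (`k` algebraically closed, `|G|` prime to the characteristic), not
consisting of scalars, has a point of `ℙ¹(k)` whose stabiliser has index `≤ 12`.
-/
import Fermat.Agent.S48.Grp.Burnside
import Fermat.Agent.S48.Grp.Mobius

set_option autoImplicit false

namespace Fermat.Agent.S48.Grp

open OnePoint Matrix MulAction
open scoped MatrixGroups

variable {k : Type*} [Field k] [DecidableEq k]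

/-- Sketch.  Let `G` act on `OnePoint k` through `ρ` (`MulAction.compHom (OnePoint k) ρ`, use it as a
local instance, or work with the subgroup `ρ.range`).
`Z = {g | IsScalar (ρ g)}` (a subgroup: `isScalar_one`, `IsScalar.mul`, `IsScalar.inv`).
`Ω = {x | ∃ g, ¬ IsScalar (ρ g) ∧ ρ g • x = x}`: stable under `G`
(`ρ (h g h⁻¹)` fixes `ρ h • x`, `isScalar_conj_iff`), so a `SubMulAction`; finite, being the union
over the finite group `G` of the sets `fixedBy (OnePoint k) (ρ g)` of cardinality `2`
(`card_fixedBy_eq_two` with `N = Nat.card G`, `pow_card_eq_one'`).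
For `g ∉ Z`, `fixedBy Ω g ≃ fixedBy (OnePoint k) (ρ g)`.  Apply `exists_large_stabilizer`. -/
theorem exists_point_large_stabilizer [IsAlgClosed k] {G : Type*} [Group G] [Finite G]
    (ρ : G →* GL (Fin 2) k) (hG : (Nat.card G : k) ≠ 0) (hns : ∃ g, ¬ IsScalar (ρ g)) :
    ∃ x : OnePoint k, Nat.card G ≤ 12 * Nat.card {g : G // ρ g • x = x} := by
  let _ : MulAction G (OnePoint k) := MulAction.compHom (OnePoint k) ρ
  have hsmul : ∀ (g : G) (x : OnePoint k), g • x = ρ g • x := fun _ _ => rfl
  let Z : Subgroup G :=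
    { carrier := {g | IsScalar (ρ g)}
      mul_mem' := by
        intro a b ha hb
        simp only [Set.mem_ofPred_eq, map_mul] at *
        exact ha.mul hb
      one_mem' := by
        simp only [Set.mem_ofPred_eq, map_one]
        exact isScalar_one
      inv_mem' := by
        intro a ha
        simp only [Set.mem_ofPred_eq, map_inv] at *
        exact ha.inv }
  have hZmem : ∀ g, g ∈ Z ↔ IsScalar (ρ g) := fun _ => Iff.rfl
  let Ω : SubMulAction G (OnePoint k) :=
    { carrier := {x | ∃ g, ¬ IsScalar (ρ g) ∧ ρ g • x = x}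
      smul_mem' := by
        rintro h x ⟨g, hg, hgx⟩
        refine ⟨h * g * h⁻¹, ?_, ?_⟩
        · have := isScalar_conj_iff (ρ h)⁻¹ (ρ g)
          rw [inv_inv] at this
          simpa only [map_mul, map_inv, this] using hg
        · rw [hsmul, map_mul, map_mul, map_inv, mul_smul, mul_smul, inv_smul_smul, hgx] }
  have hΩmem : ∀ x, x ∈ Ω ↔ ∃ g, ¬ IsScalar (ρ g) ∧ ρ g • x = x := fun _ => Iff.rfl
  have hcard2 : ∀ g, ¬ IsScalar (ρ g) → Nat.card (fixedBy (OnePoint k) (ρ g)) = 2 := by
    intro g hg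
    refine card_fixedBy_eq_two hG ?_ hg
    rw [← map_pow, pow_card_eq_one', map_one]
  have hfin : Finite Ω := by
    have hsub : (Ω : Set (OnePoint k)) ⊆
        ⋃ g : {g : G // ¬ IsScalar (ρ g)}, fixedBy (OnePoint k) (ρ g.1) := by
      rintro x ⟨g, hg, hgx⟩
      exact Set.mem_iUnion.2 ⟨⟨g, hg⟩, hgx⟩
    have hf : (⋃ g : {g : G // ¬ IsScalar (ρ g)}, fixedBy (OnePoint k) (ρ g.1)).Finite := by
      refine Set.finite_iUnion fun g => ?_
      have : Finite (fixedBy (OnePoint k) (ρ g.1)) :=
        Nat.finite_of_card_ne_zero (by rw [hcard2 g.1 g.2]; norm_num)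
      exact Set.toFinite _
    exact (hf.subset hsub).to_subtype
  obtain ⟨ω, hω⟩ := exists_large_stabilizer (G := G) (Ω := Ω) Z
    (by
      intro g hg ω
      exact Subtype.ext (IsScalar.smul_eq ((hZmem g).1 hg) ω.1))
    (by
      intro g hg
      rw [← hcard2 g hg]
      refine Nat.card_congr
        { toFun := fun x => ⟨x.1.1, congrArg Subtype.val x.2⟩
          invFun := fun x => ⟨⟨x.1, ⟨g, hg, x.2⟩⟩, Subtype.ext x.2⟩
          left_inv := fun _ => rfl
          right_inv := fun _ => rfl })
    (by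
      rintro ⟨x, g, hg, hgx⟩
      exact ⟨g, hg, Subtype.ext hgx⟩)
    (by
      obtain ⟨g, hg⟩ := hns
      intro h
      exact hg ((hZmem g).1 (h ▸ Subgroup.mem_top g)))
  refine ⟨ω.1, hω.trans_eq ?_⟩
  congr 1
  refine Nat.card_congr
    { toFun := fun g => ⟨g.1, congrArg Subtype.val g.2⟩
      invFun := fun g => ⟨g.1, Subtype.ext g.2⟩
      left_inv := fun _ => rfl
      right_inv := fun _ => rfl }

end Fermat.Agent.S48.Grp
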