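/-
S48 (Deligne-Serre), block GRP, leaf G5: in a point stabiliser at most two elements have a given
characteristic polynomial.
-/
import Fermat.Agent.S48.Grp.Mobius

set_option autoImplicit false
set_option linter.unusedSectionVars false

namespace Fermat.Agent.S48.Grp

open OnePoint Matrix MulAction Polynomial
open scoped MatrixGroups

variable {k : Type*} [Field k] [DecidableEq k]

theorem Torus_mul_apply (g u : GL (Fin 2) k) (i j : Fin 2) :
    (g * u) i j = g i 0 * u 0 j + g i 1 * u 1 j := by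
  show ((g * u : GL (Fin 2) k) : Matrix (Fin 2) (Fin 2) k) i j = _
  rw [Units.val_mul, Matrix.mul_apply, Fin.sum_univ_two]

theorem Torus_diag_ne_zero {g : GL (Fin 2) k} (hg : g 1 0 = 0) : g 0 0 ≠ 0 ∧ g 1 1 ≠ 0 := by
  have h := g.det_ne_zero
  rw [Matrix.det_fin_two] at h
  have hg' : (g : Matrix (Fin 2) (Fin 2) k) 1 0 = 0 := hg
  rw [hg', mul_zero, sub_zero] at h
  exact ⟨left_ne_zero_of_mul h, right_ne_zero_of_mul h⟩

theorem Torus_det_upper {g : GL (Fin 2) k} (hg : g 1 0 = 0) :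
    (g : Matrix (Fin 2) (Fin 2) k).det = g 0 0 * g 1 1 := by
  have hg' : (g : Matrix (Fin 2) (Fin 2) k) 1 0 = 0 := hg
  rw [Matrix.det_fin_two, hg', mul_zero, sub_zero]

theorem Torus_ext {g h : GL (Fin 2) k} (h00 : g 0 0 = h 0 0) (h01 : g 0 1 = h 0 1)
    (h10 : g 1 0 = h 1 0) (h11 : g 1 1 = h 1 1) : g = h := by
  apply Units.ext
  ext i j
  fin_cases i <;> fin_cases j
  · exact h00
  · exact h01
  · exact h10
  · exact h11

/-- Two upper triangular matrices `g, h` with the same `0 0` entry and the same determinant, such that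
`g⁻¹ h` has finite order prime to the characteristic, are equal (`upper_unipotent` for `g⁻¹ * h`,
which is `[[1, *], [0, 1]]`). -/
theorem upper_eq_of_entry_eq {g h : GL (Fin 2) k} (hg : g 1 0 = 0) (hh : h 1 0 = 0)
    (h00 : g 0 0 = h 0 0) (hdet : (g : Matrix (Fin 2) (Fin 2) k).det = (h : Matrix (Fin 2) (Fin 2) k).det)
    {N : ℕ} (hN : (N : k) ≠ 0) (hgN : (g⁻¹ * h) ^ N = 1) : g = h := by
  obtain ⟨hg0, hg1⟩ := Torus_diag_ne_zero hg
  have h11 : g 1 1 = h 1 1 := by
    rw [Torus_det_upper hg, Torus_det_upper hh, ← h00] at hdet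
    exact mul_left_cancel₀ hg0 hdet
  set u := g⁻¹ * h with hu
  have hgu : g * u = h := by rw [hu, mul_inv_cancel_left]
  have e10 := Torus_mul_apply g u 1 0
  have e00 := Torus_mul_apply g u 0 0
  have e11 := Torus_mul_apply g u 1 1
  have e01 := Torus_mul_apply g u 0 1
  rw [hgu] at e10 e00 e11 e01
  have u10 : u 1 0 = 0 := by
    rw [hh, hg, zero_mul, zero_add] at e10
    exact (mul_eq_zero.mp e10.symm).resolve_left hg1
  have u00 : u 0 0 = 1 := by
    rw [u10, mul_zero, add_zero, ← h00] at e00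
    exact mul_left_cancel₀ hg0 (by rw [← e00, mul_one])
  have u11 : u 1 1 = 1 := by
    rw [hg, zero_mul, zero_add, ← h11] at e11
    exact mul_left_cancel₀ hg1 (by rw [← e11, mul_one])
  have u01 : u 0 1 = 0 := upper_unipotent u10 (u00.trans u11.symm) hN hgN
  rw [u01, u11, mul_zero, zero_add, mul_one] at e01
  exact Torus_ext h00 e01.symm (hg.trans hh.symm) h11

/-- the `0 0` entry of an upper triangular matrix is a root of its characteristic polynomial
(`Matrix.charpoly_fin_two`). -/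
theorem upper_entry_isRoot {g : GL (Fin 2) k} (hg : g 1 0 = 0) :
    (g : Matrix (Fin 2) (Fin 2) k).charpoly.IsRoot (g 0 0) := by
  have hg' : (g : Matrix (Fin 2) (Fin 2) k) 1 0 = 0 := hg
  rw [Matrix.charpoly_fin_two, Polynomial.IsRoot.def, Matrix.det_fin_two, Matrix.trace_fin_two, hg']
  simp only [eval_add, eval_sub, eval_pow, eval_X, eval_mul, eval_C]
  ring

/-- Sketch: `P • ∞ = x` (`exists_smul_infty`), `g' = P⁻¹ ρ(g) P` is upper triangular
(`smul_infty_eq_self_iff`) with the same characteristic polynomial (`Matrix.charpoly` is conjugation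
invariant: `Matrix.charpoly_units_conj`); `g ↦ g' 0 0` is injective on our set
(`upper_eq_of_entry_eq`, `N = Nat.card G`, determinant = constant coefficient of `Q`) with values in
`Q.roots.toFinset`, of cardinality `≤ natDegree Q = 2` (if the set is empty there is nothing to
prove, otherwise `Q` is a charpoly: monic of degree `2`). -/
theorem card_stabilizer_charpoly_le_two {G : Type*} [Group G] [Finite G]
    (ρ : G →* GL (Fin 2) k) (hinj : Function.Injective ρ) (hG : (Nat.card G : k) ≠ 0)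
    (x : OnePoint k) (Q : k[X]) :
    Nat.card {g : G // ρ g • x = x ∧ (ρ g : Matrix (Fin 2) (Fin 2) k).charpoly = Q} ≤ 2 := by
  obtain ⟨P, hP⟩ := exists_smul_infty x
  rcases isEmpty_or_nonempty {g : G // ρ g • x = x ∧ (ρ g : Matrix (Fin 2) (Fin 2) k).charpoly = Q}
    with hemp | ⟨⟨g₀, -, hg₀⟩⟩
  · rw [Nat.card_of_isEmpty]; exact Nat.zero_le 2
  have hQdeg : Q.natDegree = 2 := by
    rw [← hg₀, Matrix.charpoly_natDegree_eq_dim, Fintype.card_fin]
  have hup : ∀ g : G, ρ g • x = x → (P⁻¹ * ρ g * P) 1 0 = 0 := by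
    intro g hg
    rw [← OnePoint.smul_infty_eq_self_iff, mul_smul, mul_smul, hP, hg, ← hP, inv_smul_smul]
  have hcp : ∀ g : G, ((P⁻¹ * ρ g * P : GL (Fin 2) k) : Matrix (Fin 2) (Fin 2) k).charpoly
      = (ρ g : Matrix (Fin 2) (Fin 2) k).charpoly := by
    intro g
    rw [Units.val_mul, Units.val_mul, Matrix.coe_units_inv]
    exact Matrix.charpoly_units_conj' P _
  let f : {g : G // ρ g • x = x ∧ (ρ g : Matrix (Fin 2) (Fin 2) k).charpoly = Q} →
      {a : k // a ∈ Q.roots.toFinset} := fun g =>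
    ⟨(P⁻¹ * ρ g.1 * P) 0 0, by
      have hQ0 : Q ≠ 0 := by
        intro h0
        rw [h0, natDegree_zero] at hQdeg
        exact absurd hQdeg (by norm_num)
      rw [Multiset.mem_toFinset, mem_roots hQ0]
      have h := upper_entry_isRoot (hup g.1 g.2.1)
      rwa [hcp g.1, g.2.2] at h⟩
  have hf : Function.Injective f := by
    intro g₁ g₂ h
    have h00 : (P⁻¹ * ρ g₁.1 * P) 0 0 = (P⁻¹ * ρ g₂.1 * P) 0 0 := congrArg Subtype.val h
    have hdet : ((P⁻¹ * ρ g₁.1 * P : GL (Fin 2) k) : Matrix (Fin 2) (Fin 2) k).det =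
        ((P⁻¹ * ρ g₂.1 * P : GL (Fin 2) k) : Matrix (Fin 2) (Fin 2) k).det := by
      rw [Matrix.det_eq_sign_charpoly_coeff, Matrix.det_eq_sign_charpoly_coeff, hcp, hcp, g₁.2.2,
        g₂.2.2]
    have hpow : ((P⁻¹ * ρ g₁.1 * P)⁻¹ * (P⁻¹ * ρ g₂.1 * P)) ^ Nat.card G = 1 := by
      have e : (P⁻¹ * ρ g₁.1 * P)⁻¹ * (P⁻¹ * ρ g₂.1 * P) = P⁻¹ * ρ (g₁.1⁻¹ * g₂.1) * P := by
        rw [map_mul, map_inv]; group
      have e2 : ∀ (a : GL (Fin 2) k) (n : ℕ), (P⁻¹ * a * P) ^ n = P⁻¹ * a ^ n * P := by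
        intro a n
        induction n with
        | zero => simp
        | succ n ih => rw [pow_succ, ih, pow_succ]; group
      rw [e, e2, ← map_pow, pow_card_eq_one', map_one, mul_one, inv_mul_cancel]
    have heq := upper_eq_of_entry_eq (hup g₁.1 g₁.2.1) (hup g₂.1 g₂.2.1) h00 hdet hG hpow
    apply Subtype.ext
    apply hinj
    exact mul_left_cancel (mul_right_cancel heq)
  calc Nat.card {g : G // ρ g • x = x ∧ (ρ g : Matrix (Fin 2) (Fin 2) k).charpoly = Q}
      ≤ Nat.card {a : k // a ∈ Q.roots.toFinset} := Nat.card_le_card_of_injective f hf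
    _ = Q.roots.toFinset.card := by rw [Nat.card_eq_fintype_card, Fintype.card_coe]
    _ ≤ Multiset.card Q.roots := Multiset.toFinset_card_le _
    _ ≤ Q.natDegree := Polynomial.card_roots' Q
    _ = 2 := hQdeg

/-- A scalar matrix is determined by its characteristic polynomial `(X - c)²`
(`c` is a root of `(X - c')²`, so `c = c'`; `upper_entry_isRoot`, `Matrix.charpoly_fin_two`). -/
theorem IsScalar.eq_of_charpoly_eq {g h : GL (Fin 2) k} (hg : IsScalar g) (hh : IsScalar h)
    (hc : (g : Matrix (Fin 2) (Fin 2) k).charpoly = (h : Matrix (Fin 2) (Fin 2) k).charpoly) :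
    g = h := by
  obtain ⟨g01, g10, g00⟩ := hg
  obtain ⟨h01, h10, h00⟩ := hh
  have hroot := upper_entry_isRoot g10
  have h01' : (h : Matrix (Fin 2) (Fin 2) k) 0 1 = 0 := h01
  have h00' : (h : Matrix (Fin 2) (Fin 2) k) 0 0 = (h : Matrix (Fin 2) (Fin 2) k) 1 1 := h00
  rw [hc, Matrix.charpoly_fin_two, Polynomial.IsRoot.def, Matrix.det_fin_two, Matrix.trace_fin_two,
    h01', h00'] at hroot
  simp only [eval_add, eval_sub, eval_pow, eval_X, eval_mul, eval_C] at hroot
  have hsq : (g 0 0 - h 1 1) ^ 2 = 0 := by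
    rw [← hroot]; ring
  have e : g 0 0 = h 1 1 := sub_eq_zero.mp (pow_eq_zero_iff (two_ne_zero)|>.mp hsq)
  exact Torus_ext (e.trans h00.symm) (g01.trans h01.symm) (g10.trans h10.symm) (g00.symm.trans e)

end Fermat.Agent.S48.Grp
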