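/-
S48 (Deligne-Serre), block GRP, leaf G6: the bound `|G| ≤ 48 |Y|` when `|G|` is prime to the
characteristic.
-/
import Fermat.Agent.S48.Grp.Jordan
import Fermat.Agent.S48.Grp.Torus

set_option autoImplicit false

namespace Fermat.Agent.S48.Grp

open OnePoint Matrix MulAction Polynomial
open scoped MatrixGroups

variable {k : Type*} [Field k] [DecidableEq k]

theorem CaseB_card_subtype {G : Type*} [Fintype G] (P : G → Prop) [DecidablePred P] :
    Nat.card {g : G // P g} = (Finset.univ.filter P).card := by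
  rw [Nat.card_eq_fintype_card, Fintype.card_subtype]

/-- Sketch.  `bad = {g | charpoly (ρ g) ∉ Y}`, `24 |bad| ≤ |G|`.
* All `ρ g` scalar: `g ↦ charpoly (ρ g)` is injective (`IsScalar.eq_of_charpoly_eq`, `hinj`), so
  `|G| - |bad| ≤ |Y|`, and `|G| ≤ 24/23 |Y|`.
* Otherwise `x` with `|G| ≤ 12 |C|`, `C = {g | ρ g • x = x}` (`exists_point_large_stabilizer`).
  `C ⊆ bad ∪ ⋃_{Q ∈ Y} {g ∈ C | charpoly (ρ g) = Q}`, so `|C| ≤ |bad| + 2 |Y|`
  (`card_stabilizer_charpoly_le_two`), `|G| ≤ 12 |bad| + 24 |Y| ≤ |G| / 2 + 24 |Y|`. -/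
theorem card_le_of_coprime [IsAlgClosed k] {G : Type*} [Group G] [Finite G]
    (ρ : G →* GL (Fin 2) k) (hinj : Function.Injective ρ) (hG : (Nat.card G : k) ≠ 0)
    (Y : Finset k[X])
    (hY : 24 * Nat.card {g : G // (ρ g : Matrix (Fin 2) (Fin 2) k).charpoly ∉ Y} ≤ Nat.card G) :
    Nat.card G ≤ 48 * Y.card := by
  classical
  have := Fintype.ofFinite G
  set cp : G → k[X] := fun g => (ρ g : Matrix (Fin 2) (Fin 2) k).charpoly with hcp
  set bad : Finset G := Finset.univ.filter (fun g => cp g ∉ Y) with hbad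
  have hY' : 24 * bad.card ≤ Nat.card G := by
    rw [CaseB_card_subtype] at hY
    exact hY
  by_cases hns : ∃ g, ¬ IsScalar (ρ g)
  · obtain ⟨x, hx⟩ := exists_point_large_stabilizer ρ hG hns
    rw [CaseB_card_subtype] at hx
    set C : Finset G := Finset.univ.filter (fun g => ρ g • x = x) with hC
    have hsub : C ⊆ bad ∪ Y.biUnion
        (fun Q => Finset.univ.filter (fun g => ρ g • x = x ∧ cp g = Q)) := by
      intro g hg
      rw [hC, Finset.mem_filter] at hg
      rw [Finset.mem_union]
      by_cases hgY : cp g ∈ Y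
      · right
        rw [Finset.mem_biUnion]
        exact ⟨cp g, hgY, Finset.mem_filter.2 ⟨Finset.mem_univ _, hg.2, rfl⟩⟩
      · left
        exact Finset.mem_filter.2 ⟨Finset.mem_univ _, hgY⟩
    have h1 : C.card ≤ bad.card + 2 * Y.card := by
      refine (Finset.card_le_card hsub).trans ((Finset.card_union_le _ _).trans ?_)
      refine Nat.add_le_add_left (Finset.card_biUnion_le.trans ?_) _
      have h2 : ∀ Q ∈ Y, (Finset.univ.filter (fun g => ρ g • x = x ∧ cp g = Q)).card ≤ 2 := by
        intro Q _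
        rw [← CaseB_card_subtype]
        exact card_stabilizer_charpoly_le_two ρ hinj hG x Q
      have h3 := Finset.sum_le_card_nsmul Y _ 2 h2
      rw [smul_eq_mul, mul_comm] at h3
      exact h3
    omega
  · push Not at hns
    have hinjcp : Function.Injective cp := by
      intro g h hgh
      exact hinj (IsScalar.eq_of_charpoly_eq (hns g) (hns h) hgh)
    have h1 : (Finset.univ.filter (fun g => cp g ∈ Y)).card ≤ Y.card := by
      apply Finset.card_le_card_of_injOn cp
      · intro g hg
        exact (Finset.mem_filter.1 hg).2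
      · exact hinjcp.injOn
    have h2 : (Finset.univ.filter (fun g => cp g ∈ Y)).card + bad.card = Nat.card G := by
      rw [hbad, Finset.card_filter_add_card_filter_not, Finset.card_univ,
        Nat.card_eq_fintype_card]
    omega

end Fermat.Agent.S48.Grp
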