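/-
S48 (Deligne-Serre), block GRP: MAIN THEOREM (D-S Prop. 7.2 without Dickson's classification).
`G` finite, `ρ : G → GL₂(k)`, `k` algebraically closed of characteristic `ℓ`, `ρ` "pseudo-faithful"
(`hker`, the kernel property of `Lib/QuadRep`), at most `|Y|` characteristic polynomials outside a
subset of density `≤ 1/24`, `ℓ > 4 |Y|`.  Then `|G| ≤ 48 |Y|` and `ℓ ∤ |G|`.
-/
import Fermat.Agent.S48.Grp.CaseA
import Fermat.Agent.S48.Grp.CaseB

set_option autoImplicit false

namespace Fermat.Agent.S48.Grp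

open Matrix Polynomial
open scoped MatrixGroups

theorem card_le_matrix {k : Type*} [Field k] [IsAlgClosed k] (ℓ : ℕ) [Fact ℓ.Prime] [CharP k ℓ]
    {G : Type*} [Group G] [Finite G] (ρ : G →* GL (Fin 2) k)
    (hker : ∀ u : G, (∀ g : G, (ρ (g * u) : Matrix (Fin 2) (Fin 2) k).charpoly =
      (ρ g : Matrix (Fin 2) (Fin 2) k).charpoly) → u = 1)
    (Y : Finset k[X])
    (hY : 24 * Nat.card {g : G // (ρ g : Matrix (Fin 2) (Fin 2) k).charpoly ∉ Y} ≤ Nat.card G)
    (hℓ : 4 * Y.card < ℓ) :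
    Nat.card G ≤ 48 * Y.card ∧ ¬ ℓ ∣ Nat.card G := by
  classical
  have hnd : ¬ ℓ ∣ Nat.card G := not_dvd_card ℓ ρ hker Y (by omega) hℓ
  refine ⟨?_, hnd⟩
  have hinj : Function.Injective ρ := by
    rw [injective_iff_map_eq_one]
    intro u hu
    exact hker u fun g => by rw [map_mul, hu, mul_one]
  have hG : (Nat.card G : k) ≠ 0 := by
    rwa [Ne, CharP.cast_eq_zero_iff k ℓ]
  exact card_le_of_coprime ρ hinj hG Y hY

/-- Module version (the form produced by `Lib/QuadRep.exists_two_dim`). -/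
theorem card_le_main {k : Type*} [Field k] [IsAlgClosed k] (ℓ : ℕ) [Fact ℓ.Prime] [CharP k ℓ]
    {V : Type*} [AddCommGroup V] [Module k V] [Module.Finite k V] (h2 : Module.finrank k V = 2)
    {G : Type*} [Group G] [Finite G] (ρ : G →* Module.End k V)
    (hker : ∀ u : G, (∀ g : G, (ρ (g * u)).charpoly = (ρ g).charpoly) → u = 1)
    (Y : Finset k[X])
    (hY : 24 * Nat.card {g : G // (ρ g).charpoly ∉ Y} ≤ Nat.card G)
    (hℓ : 4 * Y.card < ℓ) :
    Nat.card G ≤ 48 * Y.card ∧ ¬ ℓ ∣ Nat.card G := by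
  classical
  let b : Module.Basis (Fin 2) k V := Module.finBasisOfFinrankEq k V h2
  let e : Module.End k V ≃ₐ[k] Matrix (Fin 2) (Fin 2) k := LinearMap.toMatrixAlgEquiv b
  let ρM : G →* GL (Fin 2) k := ((e : Module.End k V →* Matrix (Fin 2) (Fin 2) k).comp ρ).toHomUnits
  have hρM : ∀ g, (ρM g : Matrix (Fin 2) (Fin 2) k).charpoly = (ρ g).charpoly := by
    intro g
    show (LinearMap.toMatrix b b (ρ g)).charpoly = _
    exact LinearMap.charpoly_toMatrix (ρ g) b
  refine card_le_matrix ℓ ρM ?_ Y ?_ hℓ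
  · intro u hu
    exact hker u fun g => by rw [← hρM, ← hρM, hu]
  · simpa only [hρM] using hY

end Fermat.Agent.S48.Grp
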